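import Mathlib.MeasureTheory.Integral.CircleAverage
import Mathlib.Topology.UniformSpace.HeineCantor
import Mathlib.MeasureTheory.Integral.DominatedConvergence

/-!
# The curve `(x, x ^ n)` equidistributes on the torus

For continuous functions the average along the curve tends to the double average.
-/

set_option autoImplicit false

noncomputable section

namespace FA.BoydLawton

open Filter Topology MeasureTheory Set Real

theorem circleMap_pow (n : ℕ) (θ : ℝ) : circleMap 0 1 θ ^ n = circleMap 0 1 (n * θ) := by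
  simp only [circleMap, zero_add, Complex.ofReal_one, one_mul, ← Complex.exp_nat_mul]
  push_cast
  ring_nf

/-- **Equidistribution of `(x, x ^ n)`.** -/
theorem tendsto_average_pow {F : ℂ → ℂ → ℝ} (hF : Continuous (Function.uncurry F)) :
    Tendsto (fun n : ℕ => circleAverage (fun x => F x (x ^ n)) 0 1) atTop
      (𝓝 (circleAverage (fun x => circleAverage (F x) 0 1) 0 1)) := by
  have h2π : (0 : ℝ) < 2 * π := two_pi_pos
  set e : ℝ → ℂ := circleMap 0 1
  have he : Continuous e := continuous_circleMap 0 1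
  set H : ℝ × ℝ → ℝ := fun p => F (e p.1) (e p.2)
  have hH : Continuous H := hF.comp ((he.comp continuous_fst).prodMk (he.comp continuous_snd))
  have hper : ∀ s, Function.Periodic (fun t => H (s, t)) (2 * π) := fun s t => by
    simp only [H, e, periodic_circleMap 0 1 t]
  set G : ℝ → ℝ := fun s => ∫ t in 0..2 * π, H (s, t)
  have hG : Continuous G :=
    intervalIntegral.continuous_parametric_intervalIntegral_of_continuous'
      (f := fun s t => H (s, t)) hH 0 (2 * π)
  have hslice : ∀ s, Continuous fun t => H (s, t) := fun s =>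
    hH.comp (continuous_const.prodMk continuous_id)
  rw [Metric.tendsto_atTop]
  intro η hη
  obtain ⟨δ, hδ, hδH⟩ := Metric.uniformContinuousOn_iff.1
    ((isCompact_Icc.prod isCompact_Icc).uniformContinuousOn_of_continuous
      (hH.continuousOn (s := Icc (0 : ℝ) (2 * π) ×ˢ Icc (0 : ℝ) (2 * π)))) (η / 4) (by positivity)
  have hclose : ∀ s ∈ Icc 0 (2 * π), ∀ s' ∈ Icc 0 (2 * π), |s - s'| < δ → ∀ t : ℝ,
      |H (s, t) - H (s', t)| ≤ η / 4 := by
    intro s hs s' hs' hd t
    obtain ⟨u, hu, huH⟩ : ∃ u ∈ Icc 0 (2 * π), ∀ r, H (r, t) = H (r, u) := by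
      refine ⟨toIcoMod h2π 0 t, Ico_subset_Icc_self (by simpa using toIcoMod_mem_Ico h2π 0 t),
        fun r => ?_⟩
      exact ((hper r).sub_zsmul_eq (n := toIcoDiv h2π 0 t)).symm.trans
        (congrArg (fun v => H (r, v)) (self_sub_toIcoDiv_zsmul h2π 0 t))
    rw [huH, huH]
    refine (hδH (s, u) ⟨hs, hu⟩ (s', u) ⟨hs', hu⟩ ?_).le
    rw [Prod.dist_eq, dist_self, Real.dist_eq]
    exact max_lt hd hδ
  obtain ⟨N, hN⟩ := exists_nat_gt (2 * π / δ)
  refine ⟨N + 1, fun n hn => ?_⟩
  have hn0 : (0 : ℝ) < n := Nat.cast_pos.2 (by omega)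
  set h := 2 * π / n
  have hh : 0 < h := by positivity
  have hhδ : h < δ := by
    rw [div_lt_iff₀ hn0]
    rw [div_lt_iff₀ hδ] at hN
    have : (N : ℝ) ≤ n := Nat.cast_le.2 (by omega)
    nlinarith
  set a : ℕ → ℝ := fun j => j * h
  have hc1 : Continuous fun s : ℝ => H (s, n * s) :=
    hH.comp (continuous_id.prodMk (continuous_const.mul continuous_id))
  have ha : ∀ j, j < n → a j ∈ Icc 0 (2 * π) ∧ a (j + 1) ∈ Icc 0 (2 * π) ∧ a j ≤ a (j + 1) := by
    intro j hj
    have e1 : (n : ℝ) * h = 2 * π := by simp only [h]; field_simp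
    have hj' : ((j : ℝ) + 1) ≤ n := by exact_mod_cast hj
    have := mul_le_mul_of_nonneg_right hj' hh.le
    have : (0 : ℝ) ≤ j * h := by positivity
    simp only [a, mem_Icc]
    push_cast
    refine ⟨⟨by positivity, by linarith⟩, ⟨by positivity, by linarith⟩, by linarith⟩
  have hpiece : ∀ j < n, |(2 * π) * (∫ s in a j..a (j + 1), H (s, n * s)) -
      ∫ s in a j..a (j + 1), G s| ≤ 2 * π * (η / 2) * h := by
    intro j hj
    obtain ⟨hj0, hj1, hle⟩ := ha j hj
    have hwidth : a (j + 1) - a j = h := by simp only [a]; push_cast; ring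
    have hmem : ∀ s ∈ Set.uIoc (a j) (a (j + 1)), s ∈ Icc 0 (2 * π) ∧ |s - a j| < δ := by
      intro s hs
      rw [uIoc_of_le hle] at hs
      refine ⟨⟨hj0.1.trans hs.1.le, hs.2.trans hj1.2⟩, ?_⟩
      rw [abs_of_pos (sub_pos.2 hs.1)]
      linarith [hs.2]
    have e1 : ∫ s in a j..a (j + 1), H (a j, n * s) = G (a j) / n := by
      rw [intervalIntegral.integral_comp_mul_left (fun t => H (a j, t)) hn0.ne', smul_eq_mul,
        show (n : ℝ) * a (j + 1) = n * a j + 2 * π by simp only [a, h]; push_cast; field_simp,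
        (hper (a j)).intervalIntegral_add_eq _ 0, zero_add, inv_mul_eq_div]
    have b1 : |(∫ s in a j..a (j + 1), H (s, n * s)) - G (a j) / n| ≤ η / 4 * h := by
      have hi : IntervalIntegrable (fun s => H (a j, n * s)) volume (a j) (a (j + 1)) :=
        ((hslice (a j)).comp (continuous_const_mul (n : ℝ))).intervalIntegrable _ _
      rw [← e1, ← intervalIntegral.integral_sub (hc1.intervalIntegrable _ _) hi,
        ← Real.norm_eq_abs]
      refine (intervalIntegral.norm_integral_le_of_norm_le_const (C := η / 4) fun s hs => ?_).trans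
        (by rw [hwidth, abs_of_pos hh])
      exact hclose s (hmem s hs).1 (a j) hj0 (hmem s hs).2 _
    have b2 : |(∫ s in a j..a (j + 1), G s) - h * G (a j)| ≤ 2 * π * (η / 4) * h := by
      have : h * G (a j) = ∫ _ in a j..a (j + 1), G (a j) := by
        rw [intervalIntegral.integral_const, hwidth, smul_eq_mul]
      rw [this, ← intervalIntegral.integral_sub (hG.intervalIntegrable _ _) intervalIntegrable_const,
        ← Real.norm_eq_abs]
      refine (intervalIntegral.norm_integral_le_of_norm_le_const (C := 2 * π * (η / 4))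
        fun s hs => ?_).trans (by rw [hwidth, abs_of_pos hh])
      show ‖G s - G (a j)‖ ≤ _
      simp only [G]
      rw [← intervalIntegral.integral_sub ((hslice s).intervalIntegrable _ _)
        ((hslice (a j)).intervalIntegrable _ _)]
      refine (intervalIntegral.norm_integral_le_of_norm_le_const (C := η / 4) fun t _ => ?_).trans
        (by rw [sub_zero, abs_of_pos h2π]; linarith)
      exact hclose s (hmem s hs).1 (a j) hj0 (hmem s hs).2 t
    have e2 : h * G (a j) = 2 * π * (G (a j) / n) := by simp only [h]; ring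
    rw [e2] at b2
    rw [abs_le] at b1 b2 ⊢
    constructor <;>
      linarith [mul_le_mul_of_nonneg_left b1.1 h2π.le, mul_le_mul_of_nonneg_left b1.2 h2π.le]
  have hsum : |(2 * π) * (∫ s in 0..2 * π, H (s, n * s)) - ∫ s in 0..2 * π, G s| ≤
      2 * π * (η / 2) * (2 * π) := by
    have e0 : a 0 = 0 := by simp [a]
    have en : a n = 2 * π := by simp only [a, h]; field_simp
    have s1 := intervalIntegral.sum_integral_adjacent_intervals (f := fun s => H (s, n * s))
      (μ := volume) (a := a) (n := n) (fun k _ => hc1.intervalIntegrable _ _)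
    have s2 := intervalIntegral.sum_integral_adjacent_intervals (f := G)
      (μ := volume) (a := a) (n := n) (fun k _ => hG.intervalIntegrable _ _)
    rw [e0, en] at s1 s2
    rw [← s1, ← s2, Finset.mul_sum, ← Finset.sum_sub_distrib]
    refine (Finset.abs_sum_le_sum_abs _ _).trans ((Finset.sum_le_sum fun j hj =>
      hpiece j (Finset.mem_range.1 hj)).trans (le_of_eq ?_))
    rw [Finset.sum_const, Finset.card_range, nsmul_eq_mul]
    simp only [h]
    field_simp
  rw [Real.dist_eq]
  have hpt : ∀ θ : ℝ, F (e θ) (e θ ^ n) = H (θ, n * θ) := fun θ => by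
    simp only [H, e, circleMap_pow]
  simp only [circleAverage_def, smul_eq_mul]
  rw [intervalIntegral.integral_congr (fun θ _ => hpt θ),
    intervalIntegral.integral_const_mul, ← mul_sub, abs_mul, abs_of_pos (inv_pos.2 h2π),
    inv_mul_lt_iff₀ h2π]
  change |(∫ s in 0..2 * π, H (s, n * s)) - (2 * π)⁻¹ * ∫ s in 0..2 * π, G s| < 2 * π * η
  rw [show (∫ s in 0..2 * π, H (s, n * s)) - (2 * π)⁻¹ * ∫ s in 0..2 * π, G s =
    (2 * π)⁻¹ * ((2 * π) * (∫ s in 0..2 * π, H (s, n * s)) - ∫ s in 0..2 * π, G s) by field_simp,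
    abs_mul, abs_of_pos (inv_pos.2 h2π), inv_mul_lt_iff₀ h2π]
  nlinarith [mul_pos (mul_pos h2π h2π) hη]

end FA.BoydLawton

end
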