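import Fermat.Agent.BoydLawton.Main
import Fermat.Agent.SmythFormula.Iterated

/-!
# The trinomials `X ^ n + X + 1`

Their measures tend to Smyth's constant.
-/

set_option autoImplicit false

noncomputable section

namespace FA.BoydLawton

open Polynomial Filter Topology Real

theorem tendsto_trinomial :
    Tendsto (fun n : ℕ => ((X ^ n + X + 1 : ℤ[X]).map (Int.castRingHom ℂ)).mahlerMeasure) atTop
      (𝓝 (exp (3 * √3 / (4 * π) * SmythFormula.lThree))) := by
  set f : ℂ[X][X] := X + C (X + 1) with hf
  have hf0 : f ≠ 0 := Monic.ne_zero (monic_X_add_C _)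
  have hm : measureXY f = 3 * √3 / (4 * π) * SmythFormula.lThree := by
    rw [← SmythFormula.measure_two, ← SmythFormula.iterated_two, measureXY]
    congr 1
    funext x
    congr 1
    funext y
    simp [evalXY, hf]
    ring_nf
  refine Tendsto.congr' ?_ ((Real.continuous_exp.tendsto _).comp (hm ▸ tendsto_logMahlerMeasure hf0))
  filter_upwards [eventually_ge_atTop 1] with n hn
  have he : f.eval ((X : ℂ[X]) ^ n) = (X ^ n + X + 1 : ℤ[X]).map (Int.castRingHom ℂ) := by
    simp [hf, add_assoc]
  have hne : (X ^ n + X + 1 : ℤ[X]).map (Int.castRingHom ℂ) ≠ 0 := fun h => by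
    have := congrArg (Polynomial.eval 0) h
    simp [zero_pow (Nat.one_le_iff_ne_zero.1 hn)] at this
  rw [Function.comp_apply, he, mahlerMeasure_def_of_ne_zero hne, logMahlerMeasure_def,
    circleAverage_def, smul_eq_mul]

theorem one_lt_limit : 1 < exp (3 * √3 / (4 * π) * SmythFormula.lThree) := by
  rw [← SmythFormula.measure_two]
  exact Real.one_lt_exp_iff.2 SmythFormula.measure_two_pos

end FA.BoydLawton

end
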