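import Fermat.Agent.BoydLawton.Sublevel
import Mathlib.Analysis.Analytic.Polynomial
import Mathlib.Analysis.SpecialFunctions.Integrability.LogMeromorphic
import Mathlib.Analysis.SpecialFunctions.ImproperIntegrals
import Mathlib.MeasureTheory.Integral.ExpDecay
import Mathlib.MeasureTheory.Integral.Layercake
import Mathlib.Analysis.Polynomial.MahlerMeasure

/-!
# Truncating the logarithm

By Lawton's lemma the mean of `log (max |P| ε) - log |P|` is `O ((ε / |lead P|) ^ (1 / k))`.
-/

set_option autoImplicit false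

noncomputable section

namespace FA.BoydLawton

open Polynomial MeasureTheory Set Real

/-- The truncated logarithm. -/
def logTrunc (ε : ℝ) (z : ℂ) : ℝ := log (max ‖z‖ ε)

theorem continuous_logTrunc {ε : ℝ} (hε : 0 < ε) : Continuous (logTrunc ε) :=
  (continuous_norm.max continuous_const).log fun _ => (hε.trans_le (le_max_right _ _)).ne'

theorem circleIntegrable_log_eval (P : ℂ[X]) : CircleIntegrable (fun x => log ‖P.eval x‖) 0 1 :=
  MeromorphicOn.circleIntegrable_log_norm
    ((AnalyticOnNhd.eval_polynomial P).mono (Set.subset_univ _)).meromorphicOn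

theorem ae_eval_ne {P : ℂ[X]} (hP : P ≠ 0) :
    ∀ᵐ θ : ℝ, θ ∈ Ioc 0 (2 * π) → P.eval (circleMap 0 1 θ) ≠ 0 := by
  obtain ⟨S, -, hS⟩ := exists_finset_angles hP
  filter_upwards [ae_iff.2 (by simpa using S.finite_toSet.measure_zero volume :
    volume {θ : ℝ | ¬θ ∉ (S : Set ℝ)} = 0)] with θ hθ hmem h
  exact hθ (hS θ hmem h)

/-- **The truncation error.** -/
theorem exists_trunc_bound (k : ℕ) : ∃ C : ℝ, 0 < C ∧ ∀ P : ℂ[X], P ≠ 0 → P.support.card ≤ k →
    ∀ ε : ℝ, 0 < ε →
      0 ≤ circleAverage (fun x => logTrunc ε (P.eval x)) 0 1 - P.logMahlerMeasure ∧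
      circleAverage (fun x => logTrunc ε (P.eval x)) 0 1 - P.logMahlerMeasure ≤
        C * (ε / ‖P.leadingCoeff‖) ^ (1 / (k : ℝ)) := by
  obtain ⟨C, hC, hsub⟩ := exists_sublevel_bound k
  refine ⟨(2 * π)⁻¹ * (C * k + 1), by positivity, fun P hP hcard ε hε => ?_⟩
  have hk : 0 < k := (Finset.card_pos.2 (support_nonempty.2 hP)).trans_le hcard
  set A := ‖P.leadingCoeff‖
  have hA : 0 < A := norm_pos_iff.2 (leadingCoeff_ne_zero.2 hP)
  set s := 1 / (k : ℝ) with hs
  have hs0 : 0 < s := by positivity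
  have h2π : (0 : ℝ) ≤ 2 * π := two_pi_pos.le
  have hi1 : IntervalIntegrable (fun θ => logTrunc ε (P.eval (circleMap 0 1 θ))) volume 0 (2 * π) :=
    ((continuous_logTrunc hε).comp (P.continuous.comp (continuous_circleMap 0 1))).intervalIntegrable
      _ _
  have hi2 : IntervalIntegrable (fun θ => log ‖P.eval (circleMap 0 1 θ)‖) volume 0 (2 * π) :=
    circleIntegrable_log_eval P
  set f := fun θ => logTrunc ε (P.eval (circleMap 0 1 θ)) - log ‖P.eval (circleMap 0 1 θ)‖ with hf
  have hint : Integrable f (volume.restrict (Ioc 0 (2 * π))) :=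
    (intervalIntegrable_iff_integrableOn_Ioc_of_le h2π).1 (hi1.sub hi2)
  have hnn : 0 ≤ᵐ[volume.restrict (Ioc 0 (2 * π))] f := by
    refine (ae_restrict_iff' measurableSet_Ioc).2 ?_
    filter_upwards [ae_eval_ne hP] with θ hθ hmem
    simp only [hf, Pi.zero_apply, sub_nonneg, logTrunc]
    exact Real.log_le_log (norm_pos_iff.2 (hθ hmem)) (le_max_left _ _)
  obtain ⟨S, -, hS⟩ := exists_finset_angles hP
  have hmeas : ∀ t ∈ Ioi (0 : ℝ), (volume.restrict (Ioc 0 (2 * π))).real {θ | t < f θ} ≤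
      C * (ε / A) ^ s * exp (-s * t) := by
    intro t ht
    have hsubset : {θ | t < f θ} ∩ Ioc 0 (2 * π) ⊆
        {θ ∈ Ioc 0 (2 * π) | ‖P.eval (circleMap 0 1 θ)‖ < ε * exp (-t) / A * A} ∪ (S : Set ℝ) := by
      rintro θ ⟨hlt, hmem⟩
      by_cases h0 : P.eval (circleMap 0 1 θ) = 0
      · exact Or.inr (hS θ hmem h0)
      refine Or.inl ⟨hmem, ?_⟩
      have hp := norm_pos_iff.2 h0
      rw [div_mul_cancel₀ _ hA.ne', ← Real.log_lt_log_iff hp (by positivity),
        Real.log_mul hε.ne' (Real.exp_pos _).ne', Real.log_exp]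
      simp only [mem_ofPred_eq, hf, logTrunc] at hlt
      have ht' : (0 : ℝ) < t := ht
      rcases max_cases ‖P.eval (circleMap 0 1 θ)‖ ε with ⟨e, -⟩ | ⟨e, -⟩ <;> rw [e] at hlt <;>
        linarith
    have hy : 0 < ε * exp (-t) / A := by positivity
    rw [measureReal_def, Measure.restrict_apply' measurableSet_Ioc]
    refine ENNReal.toReal_le_of_le_ofReal (by positivity) ?_
    refine ((measure_mono hsubset).trans (measure_union_le _ _)).trans ?_
    rw [S.finite_toSet.measure_zero volume, add_zero]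
    refine (hsub P hP hcard _ hy).trans (ENNReal.ofReal_le_ofReal (le_of_eq ?_))
    rw [show ε * exp (-t) / A = ε / A * exp (-t) by ring, Real.mul_rpow (by positivity)
      (Real.exp_pos _).le, ← Real.exp_mul, mul_assoc]
    ring_nf
  have hbound : ∫ θ, f θ ∂(volume.restrict (Ioc 0 (2 * π))) ≤ C * k * (ε / A) ^ s := by
    rw [hint.integral_eq_integral_meas_lt hnn]
    refine (integral_mono_of_nonneg (.of_forall fun t => measureReal_nonneg)
      ((exp_neg_integrableOn_Ioi 0 hs0).const_mul (C * (ε / A) ^ s))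
      ((ae_restrict_iff' measurableSet_Ioi).2 (.of_forall hmeas))).trans (le_of_eq ?_)
    rw [integral_const_mul, integral_exp_mul_Ioi (neg_lt_zero.2 hs0), mul_zero, Real.exp_zero, hs]
    field_simp
  rw [circleAverage_def, logMahlerMeasure_def, circleAverage_def, smul_eq_mul, smul_eq_mul,
    ← mul_sub, ← intervalIntegral.integral_sub hi1 hi2, intervalIntegral.integral_of_le h2π]
  refine ⟨mul_nonneg (by positivity) (integral_nonneg_of_ae hnn), ?_⟩
  refine (mul_le_mul_of_nonneg_left hbound (by positivity)).trans ?_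
  have h1 : C * k * (ε / A) ^ s ≤ (C * k + 1) * (ε / A) ^ s :=
    mul_le_mul_of_nonneg_right (le_add_of_nonneg_right zero_le_one) (by positivity)
  rw [mul_assoc ((2 * π)⁻¹)]
  exact mul_le_mul_of_nonneg_left h1 (by positivity)

end FA.BoydLawton

end
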