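import Fermat.Agent.BoydLawton.Equidist
import Fermat.Agent.BoydLawton.Trunc
import Mathlib.Algebra.Polynomial.Eval.Degree

/-!
# The theorem of Boyd and Lawton

For `f ∈ ℂ[X][Y]` the measure of `f (x, x ^ n)` tends to the measure of `f`: the truncated logarithm
equidistributes and Lawton's lemma bounds the truncation error uniformly in `n`.
-/

set_option autoImplicit false

noncomputable section

namespace FA.BoydLawton

open Polynomial Filter Topology MeasureTheory Set Real

/-- The value at a point of a polynomial in two variables. -/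
def evalXY (f : ℂ[X][X]) (x y : ℂ) : ℂ := (f.map (evalRingHom x)).eval y

/-- The Mahler measure in two variables, logarithmic. -/
def measureXY (f : ℂ[X][X]) : ℝ :=
  circleAverage (fun x => circleAverage (fun y => log ‖evalXY f x y‖) 0 1) 0 1

theorem evalXY_eq_sum (f : ℂ[X][X]) (x y : ℂ) :
    evalXY f x y = ∑ j ∈ Finset.range (f.natDegree + 1), (f.coeff j).eval x * y ^ j := by
  rw [evalXY, eval_map, eval₂_eq_sum_range]
  rfl

theorem continuous_evalXY (f : ℂ[X][X]) : Continuous (Function.uncurry (evalXY f)) := by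
  simp only [Function.uncurry_def, evalXY_eq_sum]
  exact continuous_finsetSum _ fun j _ =>
    ((f.coeff j).continuous.comp continuous_fst).mul (continuous_snd.pow j)

theorem eval_substPow (f : ℂ[X][X]) (n : ℕ) (x : ℂ) :
    (f.eval ((X : ℂ[X]) ^ n)).eval x = evalXY f x (x ^ n) := by
  rw [evalXY_eq_sum, eval_eq_sum_range (p := f), eval_finsetSum]
  exact Finset.sum_congr rfl fun j _ => by rw [eval_mul, eval_pow, eval_pow, eval_X]

/-- The leading coefficient and the number of terms of `f (x, x ^ n)`. -/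
theorem substPow_spec {f : ℂ[X][X]} (hf : f ≠ 0) {n : ℕ}
    (hn : ∀ j ≤ f.natDegree, (f.coeff j).natDegree < n) :
    f.eval ((X : ℂ[X]) ^ n) ≠ 0 ∧
      (f.eval ((X : ℂ[X]) ^ n)).leadingCoeff = f.leadingCoeff.leadingCoeff ∧
      (f.eval ((X : ℂ[X]) ^ n)).support.card ≤
        ∑ j ∈ Finset.range (f.natDegree + 1), (f.coeff j).support.card := by
  classical
  set D := f.natDegree
  set d := f.leadingCoeff.natDegree
  set p := f.eval ((X : ℂ[X]) ^ n)
  have hp : p = ∑ j ∈ Finset.range (D + 1), f.coeff j * X ^ (n * j) := by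
    simp only [p, eval_eq_sum_range, D, ← pow_mul]
  have hdeg : p.natDegree ≤ n * D + d := by
    rw [hp]
    refine natDegree_sum_le_of_forall_le _ _ fun j hj => natDegree_mul_le.trans ?_
    rw [natDegree_X_pow]
    rcases (Nat.lt_succ_iff.1 (Finset.mem_range.1 hj)).lt_or_eq with h | h
    · have h1 := hn j h.le
      have h2 : n * (j + 1) ≤ n * D := Nat.mul_le_mul_left n h
      rw [mul_add, mul_one] at h2
      omega
    · rw [h]
      show f.leadingCoeff.natDegree + _ ≤ _
      omega
  have hcoef : p.coeff (n * D + d) = f.leadingCoeff.leadingCoeff := by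
    rw [hp, finsetSum_coeff, Finset.sum_eq_single D]
    · rw [coeff_mul_X_pow', if_pos (Nat.le_add_right _ _), Nat.add_sub_cancel_left]
      rfl
    · intro j hj hne
      refine coeff_eq_zero_of_natDegree_lt (natDegree_mul_le.trans_lt ?_)
      rw [natDegree_X_pow]
      have hlt : j < D := lt_of_le_of_ne (Nat.lt_succ_iff.1 (Finset.mem_range.1 hj)) hne
      have h1 := hn j hlt.le
      have h2 : n * (j + 1) ≤ n * D := Nat.mul_le_mul_left n hlt
      rw [mul_add, mul_one] at h2
      omega
    · exact fun h => absurd (Finset.mem_range.2 (Nat.lt_succ_self D)) h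
  have hne : p.coeff (n * D + d) ≠ 0 := by
    rw [hcoef]
    exact leadingCoeff_ne_zero.2 (leadingCoeff_ne_zero.2 hf)
  refine ⟨fun h => hne (by rw [h, coeff_zero]), ?_, ?_⟩
  · rw [leadingCoeff, natDegree_eq_of_le_of_coeff_ne_zero hdeg hne, hcoef]
  · have hsub : p.support ⊆ (Finset.range (D + 1)).biUnion
        fun j => (f.coeff j).support.image (· + n * j) := by
      intro i hi
      rw [mem_support_iff, hp, finsetSum_coeff] at hi
      obtain ⟨j, hj, hij⟩ := Finset.exists_ne_zero_of_sum_ne_zero hi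
      rw [coeff_mul_X_pow'] at hij
      split_ifs at hij with hle
      · exact Finset.mem_biUnion.2 ⟨j, hj, Finset.mem_image.2
          ⟨i - n * j, mem_support_iff.2 hij, Nat.sub_add_cancel hle⟩⟩
      · exact absurd rfl hij
    exact (Finset.card_le_card hsub).trans
      (Finset.card_biUnion_le.trans (Finset.sum_le_sum fun j _ => Finset.card_image_le))

/-- The slices of `f` at the points where the leading coefficient does not vanish. -/
theorem slice_spec {f : ℂ[X][X]} {x : ℂ} (hx : f.leadingCoeff.eval x ≠ 0) :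
    f.map (evalRingHom x) ≠ 0 ∧ (f.map (evalRingHom x)).leadingCoeff = f.leadingCoeff.eval x ∧
      (f.map (evalRingHom x)).support.card ≤ f.natDegree + 1 := by
  have hlead : (f.map (evalRingHom x)).leadingCoeff = f.leadingCoeff.eval x :=
    leadingCoeff_map_of_leadingCoeff_ne_zero (evalRingHom x) hx
  refine ⟨fun h => hx (by rw [← hlead, h, leadingCoeff_zero]), hlead, ?_⟩
  refine (card_supp_le_succ_natDegree _).trans (Nat.succ_le_succ ?_)
  exact natDegree_map_le

/-- **Integrability and approximation of the outer average.** -/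
theorem outer_average {f : ℂ[X][X]} (hf : f ≠ 0) :
    CircleIntegrable (fun x => circleAverage (fun y => log ‖evalXY f x y‖) 0 1) 0 1 ∧
      Tendsto (fun k : ℕ => circleAverage (fun x =>
          circleAverage (fun y => logTrunc ((1 / 2) ^ k) (evalXY f x y)) 0 1) 0 1) atTop
        (𝓝 (measureXY f)) := by
  obtain ⟨C, hC, hbound⟩ := exists_trunc_bound (f.natDegree + 1)
  have hlead : f.leadingCoeff ≠ 0 := leadingCoeff_ne_zero.2 hf
  obtain ⟨M, hM⟩ := ((isCompact_sphere (0 : ℂ) 1).prod (isCompact_sphere (0 : ℂ) 1)).exists_bound_of_continuousOn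
    (continuous_evalXY f).continuousOn
  set B := log (max M 1)
  set ε : ℕ → ℝ := fun k => (1 / 2) ^ k
  have hε : ∀ k, 0 < ε k ∧ ε k ≤ 1 := fun k =>
    ⟨by positivity, pow_le_one₀ (by norm_num) (by norm_num)⟩
  set T : ℕ → ℝ → ℝ := fun k θ =>
    circleAverage (fun y => logTrunc (ε k) (evalXY f (circleMap 0 1 θ) y)) 0 1 with hT
  set g : ℝ → ℝ := fun θ =>
    circleAverage (fun y => log ‖evalXY f (circleMap 0 1 θ) y‖) 0 1 with hg
  have hTc : ∀ k, Continuous (T k) := fun k => by
    simp only [hT, circleAverage_def]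
    refine (intervalIntegral.continuous_parametric_intervalIntegral_of_continuous'
      (f := fun θ φ : ℝ => logTrunc (ε k) (evalXY f (circleMap 0 1 θ) (circleMap 0 1 φ))) ?_
      0 (2 * π)).const_smul ((2 * π)⁻¹)
    exact (continuous_logTrunc (hε k).1).comp ((continuous_evalXY f).comp
      (((continuous_circleMap 0 1).comp continuous_fst).prodMk
        ((continuous_circleMap 0 1).comp continuous_snd)))
  have key : ∀ θ, f.leadingCoeff.eval (circleMap 0 1 θ) ≠ 0 →
      log ‖f.leadingCoeff.eval (circleMap 0 1 θ)‖ ≤ g θ ∧ (∀ k, g θ ≤ T k θ ∧ T k θ ≤ B) ∧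
        Tendsto (fun k => T k θ) atTop (𝓝 (g θ)) := by
    intro θ hx
    set x := circleMap 0 1 θ
    obtain ⟨hne, hl, hcard⟩ := slice_spec hx
    have hgdef : g θ = (f.map (evalRingHom x)).logMahlerMeasure := rfl
    have hb : ∀ k, 0 ≤ T k θ - g θ ∧
        T k θ - g θ ≤ C * (ε k / ‖f.leadingCoeff.eval x‖) ^ (1 / ((f.natDegree + 1 : ℕ) : ℝ)) :=
      fun k => hl ▸ hbound _ hne hcard (ε k) (hε k).1
    refine ⟨?_, fun k => ⟨by linarith [(hb k).1], ?_⟩, ?_⟩
    · rw [hgdef, logMahlerMeasure_eq_log_leadingCoeff_add_sum_log_roots, hl]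
      refine le_add_of_nonneg_right (Multiset.sum_nonneg fun r hr => ?_)
      obtain ⟨a, -, rfl⟩ := Multiset.mem_map.1 hr
      exact Real.posLog_nonneg
    · refine circleAverage_mono_on_of_le_circle
        (((continuous_logTrunc (hε k).1).comp ((continuous_evalXY f).comp
          (continuous_const.prodMk continuous_id))).continuousOn.circleIntegrable') fun y hy => ?_
      rw [abs_one] at hy
      refine Real.log_le_log ((hε k).1.trans_le (le_max_right _ _)) (max_le ?_ ?_)
      · exact (hM (x, y) ⟨by simp [x], hy⟩).trans (le_max_left _ _)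
      · exact (hε k).2.trans (le_max_right _ _)
    · have h0 : Tendsto (fun k => T k θ - g θ) atTop (𝓝 0) := by
        refine squeeze_zero (fun k => (hb k).1) (fun k => (hb k).2) ?_
        have h1 : Tendsto (fun k => ε k / ‖f.leadingCoeff.eval x‖) atTop (𝓝 0) := by
          have hp := (tendsto_pow_atTop_nhds_zero_of_lt_one (show (0 : ℝ) ≤ 1 / 2 by norm_num)
            (by norm_num)).div_const ‖f.leadingCoeff.eval x‖
          rwa [zero_div] at hp
        have h2 := (h1.rpow_const (p := 1 / ((f.natDegree + 1 : ℕ) : ℝ))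
          (Or.inr (by positivity))).const_mul C
        rwa [Real.zero_rpow (by positivity), mul_zero] at h2
      simpa using h0.add_const (g θ)
  set μ := volume.restrict (uIoc 0 (2 * π))
  have hae : ∀ᵐ θ ∂μ, f.leadingCoeff.eval (circleMap 0 1 θ) ≠ 0 := by
    refine (ae_restrict_iff' measurableSet_uIoc).2 ?_
    rw [uIoc_of_le two_pi_pos.le]
    exact ae_eval_ne hlead
  have hll : IntervalIntegrable (fun θ => log ‖f.leadingCoeff.eval (circleMap 0 1 θ)‖) volume 0
      (2 * π) := circleIntegrable_log_eval f.leadingCoeff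
  have hdom : IntervalIntegrable
      (fun θ => |log ‖f.leadingCoeff.eval (circleMap 0 1 θ)‖| + |B|) volume 0 (2 * π) :=
    hll.abs.add intervalIntegrable_const
  have habs : ∀ᵐ θ ∂μ, (∀ k, ‖T k θ‖ ≤ |log ‖f.leadingCoeff.eval (circleMap 0 1 θ)‖| + |B|) ∧
      ‖g θ‖ ≤ |log ‖f.leadingCoeff.eval (circleMap 0 1 θ)‖| + |B| := by
    filter_upwards [hae] with θ hθ
    obtain ⟨h1, h2, -⟩ := key θ hθ
    have := neg_abs_le (log ‖f.leadingCoeff.eval (circleMap 0 1 θ)‖)
    have := le_abs_self B
    have := abs_nonneg B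
    have := abs_nonneg (log ‖f.leadingCoeff.eval (circleMap 0 1 θ)‖)
    simp only [Real.norm_eq_abs, abs_le]
    refine ⟨fun k => ⟨?_, ?_⟩, ?_, ?_⟩
    · linarith [(h2 k).1]
    · linarith [(h2 k).2]
    · linarith
    · linarith [(h2 0).1, (h2 0).2]
  have hlim : ∀ᵐ θ ∂μ, Tendsto (fun k => T k θ) atTop (𝓝 (g θ)) :=
    hae.mono fun θ hθ => (key θ hθ).2.2
  have hgm : AEStronglyMeasurable g μ :=
    aestronglyMeasurable_of_tendsto_ae atTop (fun k => (hTc k).aestronglyMeasurable) hlim
  have hgi : IntervalIntegrable g volume 0 (2 * π) :=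
    intervalIntegrable_iff.2 ((intervalIntegrable_iff.1 hdom).mono' hgm (habs.mono fun θ h => h.2))
  refine ⟨hgi, ?_⟩
  simp only [measureXY, circleAverage_def, smul_eq_mul]
  refine Tendsto.const_mul _ ?_
  have h := intervalIntegral.tendsto_integral_filter_of_dominated_convergence (μ := volume) (a := 0)
    (b := 2 * π) (l := atTop) (F := T) (f := g)
    (fun θ => |log ‖f.leadingCoeff.eval (circleMap 0 1 θ)‖| + |B|)
    (.of_forall fun k => (hTc k).aestronglyMeasurable)
    (.of_forall fun k => (ae_restrict_iff' measurableSet_uIoc).1 (habs.mono fun θ h => h.1 k))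
    hdom ((ae_restrict_iff' measurableSet_uIoc).1 hlim)
  simpa only [hT, hg, circleAverage_def, smul_eq_mul] using h

/-- **The theorem of Boyd and Lawton.** -/
theorem tendsto_logMahlerMeasure {f : ℂ[X][X]} (hf : f ≠ 0) :
    Tendsto (fun n : ℕ => (f.eval ((X : ℂ[X]) ^ n)).logMahlerMeasure) atTop (𝓝 (measureXY f)) := by
  set K := ∑ j ∈ Finset.range (f.natDegree + 1), (f.coeff j).support.card
  obtain ⟨C, hC, hbound⟩ := exists_trunc_bound K
  set A := ‖f.leadingCoeff.leadingCoeff‖
  have hA : 0 < A := norm_pos_iff.2 (leadingCoeff_ne_zero.2 (leadingCoeff_ne_zero.2 hf))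
  have hK : 0 < K := by
    refine (Finset.card_pos.2 (support_nonempty.2 (leadingCoeff_ne_zero.2 hf))).trans_le ?_
    exact Finset.single_le_sum (f := fun j => (f.coeff j).support.card) (fun j _ => Nat.zero_le _)
      (Finset.mem_range.2 (Nat.lt_succ_self f.natDegree))
  rw [Metric.tendsto_atTop]
  intro η hη
  have h1 := Metric.tendsto_atTop.1 (outer_average hf).2 (η / 3) (by positivity)
  have h0 : Tendsto (fun k : ℕ => C * ((1 / 2 : ℝ) ^ k / A) ^ (1 / (K : ℝ))) atTop (𝓝 0) := by
    have h1 : Tendsto (fun k : ℕ => (1 / 2 : ℝ) ^ k / A) atTop (𝓝 0) := by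
      have hp := (tendsto_pow_atTop_nhds_zero_of_lt_one (show (0 : ℝ) ≤ 1 / 2 by norm_num)
        (by norm_num)).div_const A
      rwa [zero_div] at hp
    have hs : (0 : ℝ) < 1 / (K : ℝ) := one_div_pos.2 (Nat.cast_pos.2 hK)
    have h2 := (h1.rpow_const (p := 1 / (K : ℝ)) (Or.inr hs.le)).const_mul C
    rwa [Real.zero_rpow hs.ne', mul_zero] at h2
  obtain ⟨k, hk1, hk2⟩ := (((Filter.eventually_atTop.2 h1).and
    (h0.eventually (gt_mem_nhds (show (0 : ℝ) < η / 3 by positivity))))).exists
  set ε := (1 / 2 : ℝ) ^ k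
  have hε : 0 < ε := by positivity
  have hF : Continuous (Function.uncurry fun x y => logTrunc ε (evalXY f x y)) :=
    (continuous_logTrunc hε).comp (continuous_evalXY f)
  obtain ⟨N, hN⟩ := Metric.tendsto_atTop.1 (tendsto_average_pow hF) (η / 3) (by positivity)
  refine ⟨max N ((Finset.range (f.natDegree + 1)).sup (fun j => (f.coeff j).natDegree) + 1),
    fun n hn => ?_⟩
  obtain ⟨hne, hl, hcard⟩ := substPow_spec hf (n := n) fun j hj => by
    have := Finset.le_sup (f := fun j => (f.coeff j).natDegree)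
      (Finset.mem_range.2 (by omega : j < f.natDegree + 1))
    have := le_of_max_le_right hn
    omega
  obtain ⟨e1, e2⟩ := hbound _ hne hcard ε hε
  simp only [eval_substPow] at e1 e2
  rw [hl] at e2
  have h3 := hN n (le_of_max_le_left hn)
  rw [Real.dist_eq, abs_lt] at h3 hk1 ⊢
  simp only [A] at hk2
  constructor <;> linarith

end FA.BoydLawton

end
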