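import Mathlib.Algebra.Polynomial.Reverse
import Mathlib.Algebra.Polynomial.Div
import Mathlib.Analysis.SpecialFunctions.Complex.Arg
import Mathlib.Analysis.SpecialFunctions.Complex.Circle
import Mathlib.Analysis.Calculus.Deriv.MeanValue
import Mathlib.Analysis.Complex.RealDeriv
import Mathlib.Analysis.Calculus.Deriv.Polynomial
import Mathlib.MeasureTheory.Measure.Lebesgue.Basic
import Mathlib.MeasureTheory.Integral.CircleIntegral
import Mathlib.Topology.Algebra.Polynomial

/-!
# Lawton's lemma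

The set where a polynomial with at most `k` terms is small on the unit circle, of measure
`O (y ^ (1 / k))` independently of the degree.
-/

set_option autoImplicit false
set_option linter.style.haveILetI false

noncomputable section

namespace FA.BoydLawton

open Polynomial MeasureTheory Set Real
open scoped ComplexConjugate ENNReal

/-- A set in which the gaps of a finite set bound the distances is small. -/
theorem volume_le_of_gaps {G : Set ℝ} {S : Finset ℝ} {N : ℕ} (hN : S.card ≤ N) {L : ℝ}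
    (h : ∀ s ∈ G, ∀ t ∈ G, s < t → (∀ σ ∈ S, σ ∉ Ioc s t) → t - s ≤ L) :
    volume G ≤ ((N + 1 : ℕ) : ℝ≥0∞) * ENNReal.ofReal L := by
  classical
  set F : ℕ → Set ℝ := fun j => {θ ∈ G | (S.filter (· ≤ θ)).card = j}
  have hsub : G ⊆ ⋃ j ∈ Finset.range (N + 1), F j := fun θ hθ => by
    simp only [mem_iUnion, Finset.mem_range]
    exact ⟨_, Nat.lt_succ_of_le ((Finset.card_filter_le _ _).trans hN), hθ, rfl⟩
  have hgap : ∀ j, ∀ s ∈ F j, ∀ t ∈ F j, s < t → t - s ≤ L := by
    intro j s hs t ht hst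
    refine h s hs.1 t ht.1 hst fun σ hσ hmem => ?_
    have hlt : (S.filter (· ≤ s)).card < (S.filter (· ≤ t)).card := by
      refine Finset.card_lt_card ((Finset.ssubset_iff_of_subset fun a ha => ?_).2 ⟨σ, ?_, ?_⟩)
      · simp only [Finset.mem_filter] at ha ⊢
        exact ⟨ha.1, ha.2.trans hst.le⟩
      · exact Finset.mem_filter.2 ⟨hσ, hmem.2⟩
      · exact fun hc => absurd (Finset.mem_filter.1 hc).2 (not_le.2 hmem.1)
    rw [hs.2, ht.2] at hlt
    exact lt_irrefl _ hlt
  have hF : ∀ j, volume (F j) ≤ ENNReal.ofReal L := fun j => by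
    refine (Real.volume_le_diam _).trans (Metric.ediam_le fun s hs t ht => ?_)
    rw [edist_dist, Real.dist_eq]
    rcases lt_trichotomy s t with hst | rfl | hst
    · exact ENNReal.ofReal_le_ofReal (by rw [abs_of_neg (sub_neg.2 hst), neg_sub]; exact hgap j s hs t ht hst)
    · simp
    · exact ENNReal.ofReal_le_ofReal (by rw [abs_of_pos (sub_pos.2 hst)]; exact hgap j t ht s hs hst)
  calc volume G ≤ ∑ j ∈ Finset.range (N + 1), volume (F j) :=
        (measure_mono hsub).trans (measure_biUnion_finset_le _ _)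
    _ ≤ ∑ _j ∈ Finset.range (N + 1), ENNReal.ofReal L := Finset.sum_le_sum fun j _ => hF j
    _ = _ := by rw [Finset.sum_const, Finset.card_range, nsmul_eq_mul]

/-- Roots on the circle, by their angles. -/
theorem exists_finset_angles {P : ℂ[X]} (hP : P ≠ 0) :
    ∃ S : Finset ℝ, S.card ≤ P.natDegree ∧
      ∀ θ ∈ Ioc 0 (2 * π), P.eval (circleMap 0 1 θ) = 0 → θ ∈ S := by
  classical
  refine ⟨P.roots.toFinset.image fun z => toIocMod two_pi_pos 0 (Complex.arg z),
    Finset.card_image_le.trans ((Multiset.toFinset_card_le _).trans (card_roots' P)), ?_⟩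
  intro θ hθ h
  refine Finset.mem_image.2 ⟨circleMap 0 1 θ, Multiset.mem_toFinset.2 (mem_roots'.2 ⟨hP, h⟩), ?_⟩
  rw [show circleMap 0 1 θ = Complex.exp (θ * Complex.I) by simp [circleMap], Complex.arg_exp_mul_I,
    toIocMod_toIocMod, toIocMod_eq_self]
  rwa [zero_add]

/-- A polynomial takes a given real part at most `2 deg` times on the circle. -/
theorem exists_finset_re_eq {V : ℂ[X]} (hV : 0 < V.natDegree) (c : ℝ) :
    ∃ S : Finset ℝ, S.card ≤ 2 * V.natDegree ∧
      ∀ θ ∈ Ioc 0 (2 * π), (V.eval (circleMap 0 1 θ)).re = c → θ ∈ S := by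
  set n := V.natDegree
  set W := V.map (starRingEnd ℂ)
  set H := X ^ n * V + reflect n W - C ((2 * c : ℝ) : ℂ) * X ^ n
  have hW : W.natDegree ≤ n := natDegree_map_le
  have hcoef : H.coeff (n + n) = V.leadingCoeff := by
    simp only [H, coeff_sub, coeff_add, coeff_X_pow_mul, coeff_reflect, coeff_C_mul, coeff_X_pow,
      revAt_eq_self_of_lt (by omega : n < n + n)]
    rw [coeff_eq_zero_of_natDegree_lt (by omega : W.natDegree < n + n), if_neg (by omega)]
    simp [n, coeff_natDegree]
  have hH : H ≠ 0 := fun h => by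
    rw [h, coeff_zero, eq_comm, leadingCoeff_eq_zero] at hcoef
    simp [n, hcoef] at hV
  have hdeg : H.natDegree ≤ 2 * n := by
    refine (natDegree_sub_le _ _).trans (max_le ((natDegree_add_le _ _).trans (max_le ?_ ?_)) ?_)
    · refine natDegree_mul_le.trans ?_
      rw [natDegree_X_pow]
      omega
    · exact natDegree_reflect_le.trans (max_le (by omega) (hW.trans (by omega)))
    · exact (natDegree_C_mul_le _ _).trans (by rw [natDegree_X_pow]; omega)
  obtain ⟨S, hS, hmem⟩ := exists_finset_angles hH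
  refine ⟨S, hS.trans hdeg, fun θ hθ hre => hmem θ hθ ?_⟩
  set z := circleMap 0 1 θ
  have hz1 : ‖z‖ = 1 := by simp [z]
  have hzc : z * conj z = 1 := by rw [Complex.mul_conj, Complex.normSq_eq_norm_sq, hz1]; norm_num
  letI : Invertible (conj z) := ⟨z, hzc, by rw [mul_comm]; exact hzc⟩
  have hr := eval₂_reflect_mul_pow (RingHom.id ℂ) (conj z) n W hW
  rw [eval₂_id, eval₂_id, show ⅟(conj z) = z from rfl] at hr
  have hWz : W.eval (conj z) = conj (V.eval z) := eval_map_apply (starRingEnd ℂ) z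
  have href : (reflect n W).eval z = z ^ n * conj (V.eval z) := by
    rw [← hWz, ← hr, ← mul_assoc, mul_comm (z ^ n), mul_assoc, ← mul_pow, hzc, one_pow, mul_one]
  simp only [H, eval_sub, eval_add, eval_mul, eval_pow, eval_X, eval_C, href]
  rw [← mul_add, Complex.add_conj, hre]
  push_cast
  ring

/-- A set on which the derivative is large and the function is small. -/
theorem volume_le_of_deriv {R w : ℝ → ℝ} (hR : ∀ θ, HasDerivAt R (w θ) θ) (hw : Continuous w)
    {S : Finset ℝ} {N : ℕ} (hN : S.card ≤ N) {c : ℝ} (hc : 0 < c)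
    (hS : ∀ θ ∈ Ioc 0 (2 * π), |w θ| = c → θ ∈ S) {b : ℝ} :
    volume {θ ∈ Ioc 0 (2 * π) | |R θ| < b ∧ c ≤ |w θ|} ≤
      ((N + 1 : ℕ) : ℝ≥0∞) * ENNReal.ofReal (2 * b / c) := by
  refine volume_le_of_gaps hN fun s hs t ht hst hno => ?_
  have hbig : ∀ θ ∈ Icc s t, c ≤ |w θ| := by
    intro θ hθ
    by_contra hlt
    push Not at hlt
    obtain ⟨σ, hσ, hσc⟩ := intermediate_value_Ioc hθ.2 hw.abs.continuousOn
      (show c ∈ Ioc |w θ| |w t| from ⟨hlt, ht.2.2⟩)
    exact hno σ (hS σ ⟨hs.1.1.trans_le (hθ.1.trans hσ.1.le), hσ.2.trans ht.1.2⟩ hσc)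
      ⟨hθ.1.trans_lt hσ.1, hσ.2⟩
  obtain ⟨ξ, hξ, hslope⟩ := exists_hasDerivAt_eq_slope R w hst
    (fun θ _ => (hR θ).continuousAt.continuousWithinAt) fun θ _ => hR θ
  have h := hbig ξ (Ioo_subset_Icc_self hξ)
  rw [hslope, abs_div, abs_of_pos (sub_pos.2 hst), le_div_iff₀ (sub_pos.2 hst)] at h
  rw [le_div_iff₀ hc]
  have := abs_sub (R t) (R s)
  linarith [hs.2.1, ht.2.1]

/-- Factoring out a power of `X`. -/
theorem exists_coeff_zero_ne {P : ℂ[X]} (hP : P ≠ 0) :
    ∃ (j : ℕ) (R : ℂ[X]), P = X ^ j * R ∧ R.coeff 0 ≠ 0 ∧ R.support.card = P.support.card ∧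
      R.leadingCoeff = P.leadingCoeff := by
  obtain ⟨R, hPR, hR⟩ := exists_eq_pow_rootMultiplicity_mul_and_not_dvd P hP 0
  rw [map_zero, sub_zero, X_dvd_iff] at hR
  rw [map_zero, sub_zero] at hPR
  refine ⟨_, R, hPR, hR, ?_, ?_⟩
  · set j := P.rootMultiplicity 0
    have hsupp : P.support = R.support.map (addRightEmbedding j) := by
      ext i
      simp only [mem_support_iff, Finset.mem_map, addRightEmbedding_apply, hPR, coeff_X_pow_mul']
      constructor
      · intro h
        split_ifs at h with hji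
        · exact ⟨i - j, h, Nat.sub_add_cancel hji⟩
        · exact absurd rfl h
      · rintro ⟨m, hm, rfl⟩
        rwa [if_pos (Nat.le_add_left j m), Nat.add_sub_cancel]
    rw [hsupp, Finset.card_map]
  · rw [hPR, leadingCoeff_mul, leadingCoeff_X_pow, one_mul]

/-- The derivative along the circle. -/
theorem hasDerivAt_eval_circleMap (R : ℂ[X]) (θ : ℝ) :
    HasDerivAt (fun t : ℝ => R.eval (circleMap 0 1 t))
      ((C Complex.I * X * derivative R).eval (circleMap 0 1 θ)) θ := by
  refine ((R.hasDerivAt (circleMap 0 1 θ)).comp θ (hasDerivAt_circleMap 0 1 θ)).congr_deriv ?_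
  simp only [eval_mul, eval_C, eval_X]
  ring

/-- **Lawton's lemma.** -/
theorem exists_sublevel_bound (k : ℕ) : ∃ C : ℝ, 0 < C ∧ ∀ P : ℂ[X], P ≠ 0 → P.support.card ≤ k →
    ∀ y : ℝ, 0 < y →
      volume {θ ∈ Ioc 0 (2 * π) | ‖P.eval (circleMap 0 1 θ)‖ < y * ‖P.leadingCoeff‖} ≤
        ENNReal.ofReal (C * y ^ (1 / (k : ℝ))) := by
  induction k with
  | zero =>
    exact ⟨1, one_pos, fun P hP h => absurd (Finset.card_eq_zero.1 (Nat.le_zero.1 h))
      (fun e => hP (support_eq_empty.1 e))⟩
  | succ k ih =>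
    obtain ⟨C₀, hC₀, ih⟩ := ih
    refine ⟨C₀ + 80 + 2 * π, by positivity, fun P hP hcard y hy => ?_⟩
    obtain ⟨j, R, hPR, hR0, hRcard, hlead⟩ := exists_coeff_zero_ne hP
    have hR : R ≠ 0 := fun h => hR0 (by rw [h, coeff_zero])
    have hset : {θ ∈ Ioc 0 (2 * π) | ‖P.eval (circleMap 0 1 θ)‖ < y * ‖P.leadingCoeff‖} =
        {θ ∈ Ioc 0 (2 * π) | ‖R.eval (circleMap 0 1 θ)‖ < y * ‖R.leadingCoeff‖} := by
      rw [← hlead, hPR]
      simp
    rw [hset]
    set A := ‖R.leadingCoeff‖
    have hA : 0 < A := norm_pos_iff.2 (leadingCoeff_ne_zero.2 hR)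
    set e := (1 : ℝ) / ((k + 1 : ℕ) : ℝ) with he
    have he0 : 0 < e := by positivity
    have hye : 0 < y ^ e := Real.rpow_pos_of_pos hy _
    rcases Nat.eq_zero_or_pos R.natDegree with hn | hn
    · have hconst : ∀ θ, ‖R.eval (circleMap 0 1 θ)‖ = A := fun θ => by
        obtain ⟨a, rfl⟩ := natDegree_eq_zero.1 hn
        simp [A]
      simp only [hconst]
      rcases le_or_gt y 1 with hy1 | hy1
      · rw [show {θ ∈ Ioc 0 (2 * π) | A < y * A} = ∅ from Set.eq_empty_of_forall_notMem fun θ hθ => by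
          have := hθ.2
          nlinarith, measure_empty]
        exact zero_le
      · refine (measure_mono fun θ hθ => hθ.1).trans ?_
        rw [Real.volume_Ioc, sub_zero]
        refine ENNReal.ofReal_le_ofReal ?_
        have h1 : 1 ≤ y ^ e := Real.one_le_rpow hy1.le he0.le
        nlinarith [pi_pos]
    set n := R.natDegree
    set V := C Complex.I * X * derivative R with hV
    have hVcoeff : ∀ i, V.coeff i = Complex.I * i * R.coeff i := by
      intro i
      rw [hV, mul_assoc, coeff_C_mul]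
      rcases i with - | i
      · simp
      · rw [coeff_X_mul, coeff_derivative]
        push_cast
        ring
    have hVn : V.coeff n = Complex.I * n * R.leadingCoeff := hVcoeff n
    have hVn0 : V.coeff n ≠ 0 := by
      rw [hVn]
      simp [hR, hn.ne']
    have hVdeg : V.natDegree = n := natDegree_eq_of_le_of_coeff_ne_zero
      (natDegree_le_iff_coeff_eq_zero.2 fun i hi => by
        rw [hVcoeff, coeff_eq_zero_of_natDegree_lt (show R.natDegree < i from hi), mul_zero]) hVn0
    have hVlead : ‖V.leadingCoeff‖ = n * A := by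
      rw [leadingCoeff, hVdeg, hVn, norm_mul, norm_mul, Complex.norm_I, one_mul,
        Complex.norm_natCast]
    have hVcard : V.support.card ≤ k := by
      have h : V.support ⊆ R.support.erase 0 := fun i hi => by
        rw [mem_support_iff, hVcoeff] at hi
        rw [Finset.mem_erase, mem_support_iff]
        exact ⟨fun h => hi (by simp [h]), fun h => hi (by simp [h])⟩
      have := Finset.card_le_card h
      rw [Finset.card_erase_of_mem (mem_support_iff.2 hR0)] at this
      omega
    have hV0 : V ≠ 0 := fun h => hVn0 (by rw [h, coeff_zero])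
    have hk : 0 < k := (Finset.card_pos.2 ⟨n, mem_support_iff.2 hVn0⟩).trans_le hVcard
    set z := y ^ ((k : ℝ) * e) with hz
    have hz0 : 0 < z := Real.rpow_pos_of_pos hy _
    have hzk : z ^ (1 / (k : ℝ)) = y ^ e := by
      rw [hz, ← Real.rpow_mul hy.le]
      congr 1
      field_simp
    have hyz : y / z = y ^ e := by
      rw [div_eq_iff hz0.ne', hz, ← Real.rpow_add hy, show e + (k : ℝ) * e = 1 by
        rw [he]; field_simp; push_cast; ring, Real.rpow_one]
    set c := z * (n * A) / 2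
    have hc : 0 < c := by positivity
    have hderiv := fun θ => hasDerivAt_eval_circleMap R θ
    have hVc : Continuous fun θ => V.eval (circleMap 0 1 θ) :=
      V.continuous.comp (continuous_circleMap 0 1)
    obtain ⟨S₁, hS₁, hS₁'⟩ := exists_finset_re_eq (hVdeg.symm ▸ hn : 0 < V.natDegree) c
    obtain ⟨S₂, hS₂, hS₂'⟩ := exists_finset_re_eq (hVdeg.symm ▸ hn : 0 < V.natDegree) (-c)
    have hIdeg : (C (-Complex.I) * V).natDegree = n := by
      rw [natDegree_C_mul (neg_ne_zero.2 Complex.I_ne_zero), hVdeg]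
    obtain ⟨S₃, hS₃, hS₃'⟩ := exists_finset_re_eq (hIdeg.symm ▸ hn : 0 < (C (-Complex.I) * V).natDegree) c
    obtain ⟨S₄, hS₄, hS₄'⟩ := exists_finset_re_eq (hIdeg.symm ▸ hn : 0 < (C (-Complex.I) * V).natDegree) (-c)
    rw [hVdeg] at hS₁ hS₂
    rw [hIdeg] at hS₃ hS₄
    have him : ∀ x : ℂ, (-Complex.I * x).re = x.im := fun x => by simp
    have hre_bound := volume_le_of_deriv (R := fun θ => (R.eval (circleMap 0 1 θ)).re)
      (w := fun θ => (V.eval (circleMap 0 1 θ)).re)
      (fun θ => Complex.reCLM.hasFDerivAt.comp_hasDerivAt θ (hderiv θ))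
      (Complex.continuous_re.comp hVc) (S := S₁ ∪ S₂) (N := 4 * n)
      ((Finset.card_union_le _ _).trans (by omega)) hc
      (fun θ hθ h => by
        rcases (abs_eq hc.le).1 h with h | h
        · exact Finset.mem_union_left _ (hS₁' θ hθ h)
        · exact Finset.mem_union_right _ (hS₂' θ hθ h)) (b := y * A)
    have him_bound := volume_le_of_deriv (R := fun θ => (R.eval (circleMap 0 1 θ)).im)
      (w := fun θ => (V.eval (circleMap 0 1 θ)).im)
      (fun θ => Complex.imCLM.hasFDerivAt.comp_hasDerivAt θ (hderiv θ))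
      (Complex.continuous_im.comp hVc) (S := S₃ ∪ S₄) (N := 4 * n)
      ((Finset.card_union_le _ _).trans (by omega)) hc
      (fun θ hθ h => by
        rcases (abs_eq hc.le).1 h with h | h
        · exact Finset.mem_union_left _ (hS₃' θ hθ (by rw [eval_mul, eval_C, him]; exact h))
        · exact Finset.mem_union_right _ (hS₄' θ hθ (by rw [eval_mul, eval_C, him]; exact h)))
      (b := y * A)
    have hcover : {θ ∈ Ioc 0 (2 * π) | ‖R.eval (circleMap 0 1 θ)‖ < y * A} ⊆
        ({θ ∈ Ioc 0 (2 * π) | ‖V.eval (circleMap 0 1 θ)‖ < z * ‖V.leadingCoeff‖} ∪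
          {θ ∈ Ioc 0 (2 * π) |
            |(R.eval (circleMap 0 1 θ)).re| < y * A ∧ c ≤ |(V.eval (circleMap 0 1 θ)).re|}) ∪
          {θ ∈ Ioc 0 (2 * π) |
            |(R.eval (circleMap 0 1 θ)).im| < y * A ∧ c ≤ |(V.eval (circleMap 0 1 θ)).im|} := by
      rintro θ ⟨hθ, hlt⟩
      by_cases hsmall : ‖V.eval (circleMap 0 1 θ)‖ < z * ‖V.leadingCoeff‖
      · exact Or.inl (Or.inl ⟨hθ, hsmall⟩)
      by_cases hre : c ≤ |(V.eval (circleMap 0 1 θ)).re|
      · exact Or.inl (Or.inr ⟨hθ, (Complex.abs_re_le_norm _).trans_lt hlt, hre⟩)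
      · refine Or.inr ⟨hθ, (Complex.abs_im_le_norm _).trans_lt hlt, ?_⟩
        have := Complex.norm_le_abs_re_add_abs_im (V.eval (circleMap 0 1 θ))
        rw [hVlead] at hsmall
        simp only [c] at hre ⊢
        linarith [not_lt.1 hsmall, not_le.1 hre]
    refine (measure_mono hcover).trans (((measure_union_le _ _).trans
      (add_le_add (measure_union_le _ _) le_rfl)).trans ((add_le_add
        (add_le_add (ih V hV0 hVcard z hz0) hre_bound) him_bound).trans ?_))
    rw [← ENNReal.ofReal_natCast, ← ENNReal.ofReal_mul (by positivity),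
      ← ENNReal.ofReal_add (by positivity) (by positivity),
      ← ENNReal.ofReal_add (by positivity) (by positivity)]
    refine ENNReal.ofReal_le_ofReal ?_
    have h5 : ((4 * n + 1 : ℕ) : ℝ) * (2 * (y * A) / c) ≤ 20 * y ^ e := by
      rw [← hyz, show 2 * (y * A) / c = 4 / n * (y / z) by simp only [c]; field_simp; ring,
        ← mul_assoc]
      refine mul_le_mul_of_nonneg_right ?_ (div_nonneg hy.le hz0.le)
      have h1 : (1 : ℝ) ≤ n := by exact_mod_cast hn
      rw [mul_div_assoc', div_le_iff₀ (by positivity)]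
      push_cast
      linarith
    rw [hzk]
    nlinarith [pi_pos]

end FA.BoydLawton

end
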